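import Mathlib.Analysis.Fourier.AddCircle
import Mathlib.MeasureTheory.Measure.Prokhorov

/-!
# The theorem of Herglotz

A positive definite sequence on `ℤ` is the sequence of Fourier coefficients of a finite measure
on the circle: a cluster point of the measures with the Fejér densities.
-/

set_option autoImplicit false

noncomputable section

namespace FA.SpectralErgodic

open Finset Filter MeasureTheory
open scoped Topology ComplexConjugate NNReal BoundedContinuousFunction
open AddCircle (haarAddCircle)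

/-- The quadratic forms of the sequence are real and nonnegative. -/
def PosDefSeq (γ : ℤ → ℂ) : Prop :=
  ∀ (N : ℕ) (c : ℕ → ℂ), ∃ t : ℝ, 0 ≤ t ∧
    ∑ i ∈ range N, ∑ j ∈ range N, conj (c i) * c j * γ ((j : ℤ) - i) = t

/-- The Fejér sum of a sequence. -/
def fejerSum (γ : ℤ → ℂ) (n : ℕ) (θ : UnitAddCircle) : ℂ :=
  (((n + 1 : ℕ) : ℂ))⁻¹ *
    ∑ i ∈ range (n + 1), ∑ j ∈ range (n + 1), γ ((j : ℤ) - i) * fourier (-((j : ℤ) - i)) θ

theorem continuous_fejerSum (γ : ℤ → ℂ) (n : ℕ) : Continuous (fejerSum γ n) := by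
  unfold fejerSum
  fun_prop

theorem fejerSum_real {γ : ℤ → ℂ} (hγ : PosDefSeq γ) (n : ℕ) (θ : UnitAddCircle) :
    0 ≤ (fejerSum γ n θ).re ∧ fejerSum γ n θ = ((fejerSum γ n θ).re : ℂ) := by
  obtain ⟨t, ht, he⟩ := hγ (n + 1) fun j => fourier (-(j : ℤ)) θ
  have e : fejerSum γ n θ = ((((n + 1 : ℕ) : ℝ))⁻¹ * t : ℝ) := by
    rw [fejerSum, Complex.ofReal_mul, Complex.ofReal_inv, ← he, Complex.ofReal_natCast]
    refine congrArg _ (sum_congr rfl fun i _ => sum_congr rfl fun j _ => ?_)
    rw [← fourier_neg, neg_neg, ← fourier_add, neg_sub, mul_comm, sub_eq_add_neg]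
  rw [e, Complex.ofReal_re]
  exact ⟨by positivity, rfl⟩

theorem integral_fourier_haar (m : ℤ) :
    ∫ θ : UnitAddCircle, fourier m θ ∂haarAddCircle = if m = 0 then 1 else 0 := by
  have h := congrFun (fourierCoeff_fourier (T := (1 : ℝ)) m) 0
  rw [fourierCoeff, Pi.single_apply] at h
  rw [if_congr (eq_comm (a := m) (b := (0 : ℤ))) rfl rfl, ← h]
  simp

/-- The number of `i, j ≤ n` with `j - i = h`. -/
theorem card_differences (n : ℕ) (h : ℤ) :
    ∑ i ∈ range (n + 1), ∑ j ∈ range (n + 1), (if h - ((j : ℤ) - i) = 0 then (1 : ℕ) else 0) =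
      n + 1 - h.natAbs := by
  rw [← sum_product', sum_boole, Nat.cast_id]
  refine (card_nbij' (t := range (n + 1 - h.natAbs)) (fun p => min p.1 p.2)
    (fun k => if 0 ≤ h then (k, k + h.natAbs) else (k + h.natAbs, k)) ?_ ?_ ?_ ?_).trans
    (card_range _)
  · intro p hp
    simp only [mem_coe, mem_filter, mem_product, mem_range] at hp ⊢
    omega
  · intro k hk
    simp only [mem_coe, mem_range] at hk
    simp only [mem_coe, mem_filter, mem_product, mem_range]
    split_ifs with hh <;> dsimp only <;> omega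
  · intro p hp
    simp only [mem_coe, mem_filter, mem_product, mem_range] at hp
    refine Prod.ext ?_ ?_ <;> split_ifs with hh <;> dsimp only <;> omega
  · intro k hk
    dsimp only
    split_ifs with hh <;> dsimp only <;> omega

/-- The measure with the Fejér density. -/
def fejerMeasure (γ : ℤ → ℂ) (n : ℕ) : Measure UnitAddCircle :=
  (haarAddCircle : Measure UnitAddCircle).withDensity fun θ =>
    ((fejerSum γ n θ).re.toNNReal : ℝ≥0)

instance isFiniteMeasure_fejerMeasure (γ : ℤ → ℂ) (n : ℕ) :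
    IsFiniteMeasure (fejerMeasure γ n) :=
  isFiniteMeasure_withDensity_ofReal (Continuous.integrable_of_hasCompactSupport
    (Complex.continuous_re.comp (continuous_fejerSum γ n))
    (HasCompactSupport.of_compactSpace _)).2

theorem integral_fejerMeasure {γ : ℤ → ℂ} (hγ : PosDefSeq γ) (n : ℕ) (h : ℤ) :
    ∫ θ, fourier h θ ∂fejerMeasure γ n =
      γ h * (((n + 1 - h.natAbs : ℕ) : ℂ) / ((n + 1 : ℕ) : ℂ)) := by
  rw [fejerMeasure, integral_withDensity_eq_integral_smul
    (by exact (continuous_real_toNNReal.comp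
      (Complex.continuous_re.comp (continuous_fejerSum γ n))).measurable)]
  have e : ∀ θ : UnitAddCircle, (fejerSum γ n θ).re.toNNReal • fourier h θ =
      ∑ i ∈ range (n + 1), ∑ j ∈ range (n + 1),
        ((((n + 1 : ℕ) : ℂ))⁻¹ * γ ((j : ℤ) - i)) * fourier (h - ((j : ℤ) - i)) θ := fun θ => by
    obtain ⟨h0, h1⟩ := fejerSum_real hγ n θ
    rw [NNReal.smul_def, Real.coe_toNNReal _ h0, Complex.real_smul, ← h1, fejerSum]
    simp only [mul_sum, sum_mul, sub_eq_add_neg h, fourier_add]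
    exact sum_congr rfl fun i _ => sum_congr rfl fun j _ => by ring
  rw [integral_congr_ae (Eventually.of_forall e), integral_finsetSum _ fun i _ =>
    integrable_finsetSum _ fun j _ => (Continuous.integrable_of_hasCompactSupport (by fun_prop)
      (HasCompactSupport.of_compactSpace _))]
  rw [sum_congr rfl fun i _ => integral_finsetSum _ fun j _ =>
    (Continuous.integrable_of_hasCompactSupport (by fun_prop)
      (HasCompactSupport.of_compactSpace _))]
  simp only [integral_const_mul, integral_fourier_haar]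
  rw [← card_differences n h]
  push_cast
  rw [sum_div, mul_sum]
  refine sum_congr rfl fun i _ => ?_
  rw [sum_div, mul_sum]
  refine sum_congr rfl fun j _ => ?_
  split_ifs with hh
  · rw [show (j : ℤ) - i = h by omega]
    ring
  · ring

theorem fejerMeasure_univ {γ : ℤ → ℂ} (hγ : PosDefSeq γ) (n : ℕ) :
    (((fejerMeasure γ n).real Set.univ : ℝ) : ℂ) = γ 0 := by
  have h := integral_fejerMeasure hγ n 0
  simp only [fourier_zero, integral_const, Int.natAbs_zero, Nat.sub_zero,
    div_self (Nat.cast_ne_zero.2 (Nat.succ_ne_zero n) : ((n + 1 : ℕ) : ℂ) ≠ 0), mul_one] at h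
  rw [← h]
  simp

/-- **The theorem of Herglotz.** -/
theorem exists_herglotz {γ : ℤ → ℂ} (hγ : PosDefSeq γ) :
    ∃ μ : Measure UnitAddCircle, IsFiniteMeasure μ ∧ ∀ h : ℤ, ∫ θ, fourier h θ ∂μ = γ h := by
  obtain ⟨g, hg⟩ : ∃ g : ℝ, g = (γ 0).re := ⟨_, rfl⟩
  have hmass : ∀ n, (fejerMeasure γ n).real Set.univ = g := fun n => by
    rw [hg, ← fejerMeasure_univ hγ n, Complex.ofReal_re]
  have hlim : ∀ h : ℤ, Tendsto (fun n : ℕ => ∫ θ, fourier h θ ∂fejerMeasure γ n) atTop
      (𝓝 (γ h)) := by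
    intro h
    simp only [integral_fejerMeasure hγ]
    have h1 : Tendsto (fun n : ℕ => (((n + 1 - h.natAbs : ℕ) : ℂ) / ((n + 1 : ℕ) : ℂ))) atTop
        (𝓝 1) := by
      have h2 : Tendsto (fun n : ℕ => (1 : ℂ) - (h.natAbs : ℂ) / ((n + 1 : ℕ) : ℂ)) atTop
          (𝓝 1) := by
        have h3 : Tendsto (fun n : ℕ => (h.natAbs : ℂ) / ((n + 1 : ℕ) : ℂ)) atTop (𝓝 0) :=
          (tendsto_const_div_atTop_nhds_zero_nat _).comp (tendsto_add_atTop_nat 1)
        simpa using h3.const_sub (1 : ℂ)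
      refine h2.congr' ((eventually_ge_atTop h.natAbs).mono fun n hn => ?_)
      have hne : ((n + 1 : ℕ) : ℂ) ≠ 0 := Nat.cast_ne_zero.2 (Nat.succ_ne_zero n)
      simp only
      rw [Nat.cast_sub (by omega), sub_div, div_self hne]
    simpa using h1.const_mul (γ h)
  have hg0 : 0 ≤ g := hmass 0 ▸ measureReal_nonneg
  rcases hg0.eq_or_lt with hg1 | hg1
  · refine ⟨0, inferInstance, fun h => ?_⟩
    rw [integral_zero_measure]
    refine tendsto_nhds_unique (Tendsto.congr (fun n => ?_) tendsto_const_nhds) (hlim h)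
    rw [show fejerMeasure γ n = 0 from Measure.measure_univ_eq_zero.1
      ((measureReal_eq_zero_iff).1 (by rw [hmass n, hg1])), integral_zero_measure]
  obtain ⟨P, hP⟩ : ∃ P : ℕ → ProbabilityMeasure UnitAddCircle, ∀ n,
      (P n : Measure UnitAddCircle) = ENNReal.ofReal g⁻¹ • fejerMeasure γ n := by
    refine ⟨fun n => ⟨ENNReal.ofReal g⁻¹ • fejerMeasure γ n, ⟨?_⟩⟩, fun n => rfl⟩
    rw [Measure.smul_apply, ← ofReal_measureReal (measure_ne_top _ _), hmass, smul_eq_mul,
      ← ENNReal.ofReal_mul (inv_nonneg.2 hg0), inv_mul_cancel₀ hg1.ne', ENNReal.ofReal_one]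
  obtain ⟨Q, hQ⟩ := exists_clusterPt_of_compactSpace (map P atTop)
  refine ⟨ENNReal.ofReal g • (Q : Measure UnitAddCircle),
    Measure.smul_finite _ ENNReal.ofReal_ne_top, fun h => ?_⟩
  obtain ⟨F, hF⟩ : ∃ F : UnitAddCircle →ᵇ ℂ,
      F = BoundedContinuousFunction.mkOfCompact (fourier h) := ⟨_, rfl⟩
  have hFc : Continuous fun M : ProbabilityMeasure UnitAddCircle =>
      ∫ θ, F θ ∂(M : Measure UnitAddCircle) :=
    continuous_iff_continuousAt.2 fun M =>
      ((ProbabilityMeasure.tendsto_iff_forall_integral_rclike_tendsto ℂ).1 tendsto_id) F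
  have hFh : ∀ θ, F θ = fourier h θ := fun θ => by rw [hF]; rfl
  have hseq : Tendsto (fun n => ∫ θ, F θ ∂(P n : Measure UnitAddCircle)) atTop
      (𝓝 ((g : ℂ)⁻¹ * γ h)) := by
    refine ((hlim h).const_mul ((g : ℂ)⁻¹)).congr fun n => ?_
    simp only [hFh, hP, integral_smul_measure, ENNReal.toReal_ofReal (inv_nonneg.2 hg0),
      Complex.real_smul, Complex.ofReal_inv]
  obtain ⟨U, hU, hPU⟩ := mapClusterPt_iff_ultrafilter.1 hQ
  have hval : ∫ θ, F θ ∂(Q : Measure UnitAddCircle) = (g : ℂ)⁻¹ * γ h :=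
    tendsto_nhds_unique ((hFc.tendsto Q).comp hPU) (hseq.mono_left hU)
  simp only [hFh] at hval
  rw [integral_smul_measure, hval, ENNReal.toReal_ofReal hg0, Complex.real_smul, ← mul_assoc,
    mul_inv_cancel₀ (Complex.ofReal_ne_zero.2 hg1.ne'), one_mul]

end FA.SpectralErgodic
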