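import Fermat.Agent.Equidistribution.Criterion
import Fermat.Agent.PrimeMeanErgodic.Averages
import Fermat.Agent.SpectralErgodic.Herglotz

/-!
# The spectral measure and the criterion for mean convergence

Each vector has a measure on the circle in which the norms of its combinations along the orbit are
`L²` norms of trigonometric polynomials; so pointwise convergence of the exponential means gives
norm convergence of the averages for every isometry.
-/

set_option autoImplicit false

noncomputable section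

namespace FA.SpectralErgodic

open Finset Filter MeasureTheory
open FA.ThreePrimes (eAdd)
open scoped Topology ComplexConjugate InnerProductSpace

theorem fourier_eq_eAdd (h : ℤ) (t : ℝ) : fourier h (t : UnitAddCircle) = eAdd (h * t) := by
  rw [fourier_coe_apply, eAdd]
  congr 1
  push_cast
  ring

variable {H : Type*} [NormedAddCommGroup H] [InnerProductSpace ℂ H]

/-- The correlations of a vector. -/
def correlation (U : H →ₗᵢ[ℂ] H) (x : H) : ℤ → ℂ
  | Int.ofNat n => ⟪x, U^[n] x⟫_ℂ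
  | Int.negSucc n => ⟪U^[n + 1] x, x⟫_ℂ

theorem correlation_sub (U : H →ₗᵢ[ℂ] H) (x : H) (i j : ℕ) :
    correlation U x ((j : ℤ) - i) = ⟪U^[i] x, U^[j] x⟫_ℂ := by
  rcases le_or_gt i j with h | h
  · obtain ⟨k, rfl⟩ := Nat.exists_eq_add_of_le h
    rw [show ((i + k : ℕ) : ℤ) - i = Int.ofNat k from by simp]
    show ⟪x, U^[k] x⟫_ℂ = _
    rw [Function.iterate_add_apply, ← LinearIsometry.coe_pow, ← LinearIsometry.coe_pow,
      LinearIsometry.inner_map_map]
  · obtain ⟨k, rfl⟩ := Nat.exists_eq_add_of_lt h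
    rw [show (j : ℤ) - ((j + k + 1 : ℕ) : ℤ) = Int.negSucc k from by omega]
    show ⟪U^[k + 1] x, x⟫_ℂ = _
    rw [show j + k + 1 = j + (k + 1) from rfl, Function.iterate_add_apply (⇑U) j (k + 1) x,
      ← LinearIsometry.coe_pow, ← LinearIsometry.coe_pow, LinearIsometry.inner_map_map]

theorem inner_self_complex (v : H) : ((‖v‖ : ℝ) : ℂ) ^ 2 = ⟪v, v⟫_ℂ :=
  (inner_self_eq_norm_sq_to_K (𝕜 := ℂ) v).symm

theorem correlation_posDef (U : H →ₗᵢ[ℂ] H) (x : H) : PosDefSeq (correlation U x) := by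
  intro N c
  refine ⟨‖∑ i ∈ range N, c i • U^[i] x‖ ^ 2, sq_nonneg _, ?_⟩
  rw [Complex.ofReal_pow, inner_self_complex]
  simp only [sum_inner, inner_sum, inner_smul_left, inner_smul_right, correlation_sub, mul_sum]
  rw [sum_comm]
  exact sum_congr rfl fun j _ => sum_congr rfl fun i _ => by ring

/-- **The spectral measure.** -/
theorem exists_spectral_measure (U : H →ₗᵢ[ℂ] H) (x : H) :
    ∃ μ : Measure UnitAddCircle, IsFiniteMeasure μ ∧
      (∀ h : ℤ, ∫ θ, fourier h θ ∂μ = correlation U x h) ∧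
      ∀ {ι : Type} (s : Finset ι) (c : ι → ℂ) (b : ι → ℕ),
        ‖∑ i ∈ s, c i • U^[b i] x‖ ^ 2 = ∫ θ, ‖∑ i ∈ s, c i * fourier (b i : ℤ) θ‖ ^ 2 ∂μ := by
  obtain ⟨μ, hμ, hfou⟩ := exists_herglotz (correlation_posDef U x)
  refine ⟨μ, hμ, hfou, fun s c b => ?_⟩
  apply Complex.ofReal_injective
  rw [← integral_complex_ofReal]
  push_cast
  have e : ∀ θ : UnitAddCircle, ((‖∑ i ∈ s, c i * fourier (b i : ℤ) θ‖ : ℝ) : ℂ) ^ 2 =
      ∑ i ∈ s, ∑ j ∈ s, (conj (c i) * c j) * fourier ((b j : ℤ) - b i) θ := fun θ => by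
    rw [← Complex.conj_mul', map_sum, sum_mul_sum]
    refine sum_congr rfl fun i _ => sum_congr rfl fun j _ => ?_
    rw [map_mul, ← fourier_neg, sub_eq_add_neg, fourier_add]
    ring
  have hint : ∀ i j, Integrable
      (fun θ : UnitAddCircle => (conj (c i) * c j) * fourier ((b j : ℤ) - b i) θ) μ := fun i j =>
    Continuous.integrable_of_hasCompactSupport (by fun_prop) (HasCompactSupport.of_compactSpace _)
  rw [integral_congr_ae (Eventually.of_forall e),
    integral_finsetSum _ fun i _ => integrable_finsetSum _ fun j _ => hint i j,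
    sum_congr rfl fun i _ => integral_finsetSum _ fun j _ => hint i j, inner_self_complex]
  simp only [sum_inner, inner_sum, inner_smul_left, inner_smul_right, integral_const_mul, hfou,
    correlation_sub, mul_sum]
  rw [sum_comm]
  exact sum_congr rfl fun j _ => sum_congr rfl fun i _ => by ring

/-- The average of `U ^ (a n) x` over `s`. -/
def orbitMean (U : H →ₗᵢ[ℂ] H) (a : ℕ → ℕ) (s : Finset ℕ) (x : H) : H :=
  (#s : ℂ)⁻¹ • ∑ n ∈ s, U^[a n] x

/-- The exponential mean as a function on the circle. -/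
def circleMean (a : ℕ → ℕ) (s : Finset ℕ) (θ : UnitAddCircle) : ℂ :=
  Equidist.avg s fun n => fourier (a n : ℤ) θ

theorem norm_circleMean_le (a : ℕ → ℕ) (s : Finset ℕ) (θ : UnitAddCircle) :
    ‖circleMean a s θ‖ ≤ 1 :=
  Equidist.norm_avg_le s zero_le_one fun _ _ => (Circle.norm_coe _).le

theorem continuous_circleMean (a : ℕ → ℕ) (s : Finset ℕ) : Continuous (circleMean a s) := by
  unfold circleMean Equidist.avg
  fun_prop

theorem circleMean_coe (a : ℕ → ℕ) (s : Finset ℕ) (t : ℝ) :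
    circleMean a s (t : UnitAddCircle) = Equidist.avg s fun n => eAdd ((a n : ℝ) * t) := by
  simp only [circleMean, fourier_eq_eAdd, Int.cast_natCast]

/-- **The criterion**: if the exponential means converge everywhere then the averages converge
in norm for every isometry. -/
theorem exists_tendsto_orbitMean [CompleteSpace H] (a : ℕ → ℕ) (s : ℕ → Finset ℕ)
    (h : ∀ t : ℝ, ∃ l : ℂ,
      Tendsto (fun N => Equidist.avg (s N) fun n => eAdd ((a n : ℝ) * t)) atTop (𝓝 l))
    (U : H →ₗᵢ[ℂ] H) (x : H) :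
    ∃ y : H, Tendsto (fun N => orbitMean U a (s N) x) atTop (𝓝 y) := by
  obtain ⟨μ, hμ, -, hμU⟩ := exists_spectral_measure U x
  have hL : ∀ θ : UnitAddCircle, ∃ l : ℂ,
      Tendsto (fun N => circleMean a (s N) θ) atTop (𝓝 l) := by
    intro θ
    induction θ using QuotientAddGroup.induction_on with
    | H t => simpa only [circleMean_coe] using h t
  choose L hL using hL
  obtain ⟨D, hD⟩ : ∃ D : ℕ → ℝ, D = fun N => ∫ θ, ‖circleMean a (s N) θ - L θ‖ ^ 2 ∂μ :=
    ⟨_, rfl⟩
  have hLm : AEStronglyMeasurable L μ :=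
    aestronglyMeasurable_of_tendsto_ae atTop
      (fun N => (continuous_circleMean a (s N)).aestronglyMeasurable) (Eventually.of_forall hL)
  have hLb : ∀ θ, ‖L θ‖ ≤ 1 := fun θ => le_of_tendsto (hL θ).norm
    (Eventually.of_forall fun N => norm_circleMean_le a (s N) θ)
  have hD0 : Tendsto D atTop (𝓝 0) := by
    rw [hD, show (0 : ℝ) = ∫ _θ, (0 : ℝ) ∂μ by simp]
    refine tendsto_integral_of_dominated_convergence (fun _ => 4)
      (fun N => (((continuous_circleMean a (s N)).aestronglyMeasurable.sub hLm).norm.pow 2))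
      (integrable_const _) (fun N => Eventually.of_forall fun θ => ?_)
      (Eventually.of_forall fun θ => ?_)
    · rw [Real.norm_eq_abs, abs_of_nonneg (sq_nonneg _)]
      nlinarith [norm_nonneg (circleMean a (s N) θ - L θ), norm_circleMean_le a (s N) θ, hLb θ,
        norm_sub_le (circleMean a (s N) θ) (L θ)]
    · simpa using (((hL θ).sub_const (L θ)).norm.pow 2)
  refine cauchySeq_tendsto_of_complete (Metric.cauchySeq_iff.2 fun ε hε => ?_)
  obtain ⟨N₀, hN₀⟩ := eventually_atTop.1 (hD0.eventually_lt_const (show (0 : ℝ) < ε ^ 2 / 4 by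
    positivity))
  refine ⟨N₀, fun M hM N hN => ?_⟩
  have e1 : orbitMean U a (s M) x - orbitMean U a (s N) x =
      ∑ i ∈ (s M).disjSum (s N),
        Sum.elim (fun _ => (#(s M) : ℂ)⁻¹) (fun _ => -(#(s N) : ℂ)⁻¹) i •
          U^[Sum.elim a a i] x := by
    simp [sum_disjSum, orbitMean, smul_sum, sub_eq_add_neg]
  have e2 : ∀ θ : UnitAddCircle, ∑ i ∈ (s M).disjSum (s N),
      Sum.elim (fun _ => (#(s M) : ℂ)⁻¹) (fun _ => -(#(s N) : ℂ)⁻¹) i *
        fourier ((Sum.elim a a i : ℕ) : ℤ) θ = circleMean a (s M) θ - circleMean a (s N) θ :=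
    fun θ => by
    simp [sum_disjSum, circleMean, Equidist.avg, div_eq_inv_mul, mul_sum, sub_eq_add_neg]
  rw [dist_eq_norm]
  refine lt_of_pow_lt_pow_left₀ 2 hε.le ?_
  rw [e1, hμU]
  simp only [e2]
  have hint : ∀ K, Integrable (fun θ => ‖circleMean a (s K) θ - L θ‖ ^ 2) μ := fun K =>
    Integrable.mono' (integrable_const 4)
      (((continuous_circleMean a (s K)).aestronglyMeasurable.sub hLm).norm.pow 2)
      (Eventually.of_forall fun θ => by
        rw [Real.norm_eq_abs, abs_of_nonneg (sq_nonneg _)]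
        nlinarith [norm_nonneg (circleMean a (s K) θ - L θ), norm_circleMean_le a (s K) θ, hLb θ,
          norm_sub_le (circleMean a (s K) θ) (L θ)])
  refine lt_of_le_of_lt (integral_mono_of_nonneg (Eventually.of_forall fun θ => sq_nonneg _)
    ((((hint M).const_mul 2).add ((hint N).const_mul 2)))
    (Eventually.of_forall fun θ => ?_)) ?_
  · simp only [Pi.add_apply]
    have h1 := norm_sub_le_norm_sub_add_norm_sub (circleMean a (s M) θ) (L θ)
      (circleMean a (s N) θ)
    rw [norm_sub_rev (L θ)] at h1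
    nlinarith [sq_nonneg (‖circleMean a (s M) θ - L θ‖ - ‖circleMean a (s N) θ - L θ‖),
      norm_nonneg (circleMean a (s M) θ - circleMean a (s N) θ)]
  · rw [integral_add' ((hint M).const_mul 2) ((hint N).const_mul 2), integral_const_mul,
      integral_const_mul]
    have h1 := hN₀ M hM
    have h2 := hN₀ N hN
    rw [hD] at h1 h2
    linarith

variable [CompleteSpace H]

omit [CompleteSpace H] in
/-- The atom of a spectral measure at `t` is `lim ‖avg e (-n t) Uⁿ x‖²`. -/
theorem measureReal_atom_eq_zero (U : H →ₗᵢ[ℂ] H) (x : H) {μ : Measure UnitAddCircle}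
    [IsFiniteMeasure μ]
    (hμ : ∀ {ι : Type} (s : Finset ι) (c : ι → ℂ) (b : ι → ℕ),
      ‖∑ i ∈ s, c i • U^[b i] x‖ ^ 2 = ∫ θ, ‖∑ i ∈ s, c i * fourier (b i : ℤ) θ‖ ^ 2 ∂μ)
    (t : ℝ)
    (ht : Tendsto (fun L : ℕ => (L : ℂ)⁻¹ • ∑ n ∈ Icc 1 L, eAdd (-((n : ℝ) * t)) • U^[n] x) atTop
      (𝓝 0)) :
    μ {(t : UnitAddCircle)} = 0 := by
  rw [← measureReal_eq_zero_iff]
  refine le_antisymm ?_ measureReal_nonneg
  have h2 : Tendsto (fun L : ℕ =>
      ‖(L : ℂ)⁻¹ • ∑ n ∈ Icc 1 L, eAdd (-((n : ℝ) * t)) • U^[n] x‖ ^ 2) atTop (𝓝 0) := by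
    simpa using ht.norm.pow 2
  refine ge_of_tendsto h2 ((eventually_ge_atTop 1).mono fun L hL => ?_)
  rw [smul_sum]
  simp only [smul_smul]
  rw [hμ (Icc 1 L) (fun n => (L : ℂ)⁻¹ * eAdd (-((n : ℝ) * t))) fun n => n]
  refine le_trans (le_of_eq ?_)
    (setIntegral_le_integral (s := {(t : UnitAddCircle)})
      (Continuous.integrable_of_hasCompactSupport
      (by fun_prop) (HasCompactSupport.of_compactSpace _))
      (Eventually.of_forall fun θ => sq_nonneg _))
  rw [integral_singleton, smul_eq_mul]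
  have e : ∑ n ∈ Icc 1 L, (L : ℂ)⁻¹ * eAdd (-((n : ℝ) * t)) *
      fourier ((n : ℕ) : ℤ) (t : UnitAddCircle) = 1 := by
    simp only [fourier_eq_eAdd, Int.cast_natCast, mul_assoc, ← ThreePrimes.eAdd_add,
      neg_add_cancel, ThreePrimes.eAdd_zero, mul_one, sum_const, Nat.card_Icc, Nat.add_sub_cancel,
      nsmul_eq_mul]
    exact mul_inv_cancel₀ (Nat.cast_ne_zero.2 (by omega))
  rw [e, norm_one, one_pow, mul_one]

/-- **The limit for a vector with only the mean as rational spectrum.** -/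
theorem tendsto_orbitMean_of_fixed (a : ℕ → ℕ) (s : ℕ → Finset ℕ)
    (hs : ∀ᶠ N in atTop, (s N).Nonempty)
    (h0 : ∀ t : ℝ, Irrational t →
      Tendsto (fun N => Equidist.avg (s N) fun n => eAdd ((a n : ℝ) * t)) atTop (𝓝 0))
    (U : H →ₗᵢ[ℂ] H) (hfix : ∀ q : ℕ, 0 < q → ∀ m : H, U^[q] m = m → U m = m) (x : H) {m : H}
    (hm : Tendsto (fun L : ℕ => (L : ℂ)⁻¹ • ∑ n ∈ Icc 1 L, U^[n] x) atTop (𝓝 m)) :
    Tendsto (fun N => orbitMean U a (s N) x) atTop (𝓝 m) := by
  have hUm : U m = m := by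
    obtain ⟨m', hm'1, hm'⟩ := PrimeMeanErgodic.exists_mean U x
    rw [tendsto_nhds_unique hm hm']
    exact hm'1
  have hUk : ∀ k, U^[k] m = m := fun k => Function.IsFixedPt.iterate hUm k
  obtain ⟨y, hy⟩ : ∃ y, y = x - m := ⟨_, rfl⟩
  have hyk : ∀ k, U^[k] y = U^[k] x - m := fun k => by
    rw [hy, ← LinearIsometry.coe_pow, map_sub, LinearIsometry.coe_pow, hUk]
  obtain ⟨μ, hμ, -, hμU⟩ := exists_spectral_measure U y
  have hatom : ∀ r : ℚ, μ {(((r : ℝ)) : UnitAddCircle)} = 0 := by
    intro r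
    refine measureReal_atom_eq_zero U y hμU r ?_
    obtain ⟨l, hl⟩ : ∃ l : ℂ, l = eAdd (-(r : ℝ)) := ⟨_, rfl⟩
    have hl1 : ‖l‖ = 1 := hl ▸ ThreePrimes.norm_eAdd _
    obtain ⟨V, hV⟩ : ∃ V : H →ₗᵢ[ℂ] H, ∀ v, V v = l • U v :=
      ⟨{ toLinearMap := l • U.toLinearMap
         norm_map' := fun v => by simp [norm_smul, hl1] }, fun v => rfl⟩
    have hVn : ∀ (n : ℕ) (v : H), V^[n] v = eAdd (-((n : ℝ) * r)) • U^[n] v := by
      intro n v
      induction n with
      | zero => simp [ThreePrimes.eAdd_zero]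
      | succ n ih =>
        rw [Function.iterate_succ_apply', ih, hV, map_smul, Function.iterate_succ_apply', smul_smul,
          hl, ← ThreePrimes.eAdd_add]
        congr 2
        push_cast
        ring
    obtain ⟨v, hv1, hv⟩ := PrimeMeanErgodic.exists_mean V y
    simp only [hVn] at hv
    suffices hv0 : v = 0 by rwa [hv0] at hv
    have hq : U^[r.den] v = v := by
      have h1 := Function.IsFixedPt.iterate (f := ⇑V) hv1 r.den
      rw [Function.IsFixedPt, hVn] at h1
      have he : ((r.den : ℝ) * r) = ((r.num : ℤ) : ℝ) := by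
        rw [Rat.cast_def]
        field_simp
      rw [he, show (-((r.num : ℤ) : ℝ)) = (0 : ℝ) + (((-r.num : ℤ)) : ℝ) by push_cast; ring,
        ThreePrimes.eAdd_add_intCast, ThreePrimes.eAdd_zero, one_smul] at h1
      exact h1
    have hUv : U v = v := hfix r.den r.pos v hq
    have hlv : l • v = v := by
      conv_lhs => rw [← hUv]
      rw [← hV, hv1]
    rcases eq_or_ne l 1 with hl1' | hl1'
    · have hall : ∀ n : ℕ, eAdd (-((n : ℝ) * r)) = 1 := fun n => by
        rw [show -((n : ℝ) * (r : ℝ)) = (n : ℝ) * -(r : ℝ) by ring, ThreePrimes.eAdd_nat_mul, ← hl,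
          hl1', one_pow]
      simp only [hall, one_smul, hyk, sum_sub_distrib, smul_sub] at hv
      refine tendsto_nhds_unique hv (Tendsto.congr' ((eventually_ge_atTop 1).mono fun L hL => ?_)
        (by simpa using hm.sub_const m))
      simp only
      rw [sum_const, Nat.card_Icc, Nat.add_sub_cancel, ← Nat.cast_smul_eq_nsmul ℂ, smul_smul,
        inv_mul_cancel₀ (Nat.cast_ne_zero.2 (show L ≠ 0 by omega)), one_smul]
    · have h3 : (l - 1) • v = 0 := by rw [sub_smul, one_smul, hlv, sub_self]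
      exact (smul_eq_zero.1 h3).resolve_left (sub_ne_zero.2 hl1')
  have hae : ∀ᵐ θ ∂μ, Tendsto (fun N => circleMean a (s N) θ) atTop (𝓝 0) := by
    have hnull : μ (Set.range fun r : ℚ => ((r : ℝ) : UnitAddCircle)) = 0 := by
      rw [← Set.iUnion_singleton_eq_range]
      exact measure_iUnion_null hatom
    filter_upwards [measure_eq_zero_iff_ae_notMem.1 hnull] with θ hθ
    induction θ using QuotientAddGroup.induction_on with
    | H t =>
      simp only [circleMean_coe]
      exact h0 t fun ⟨r, hr⟩ => hθ ⟨r, by rw [← hr]⟩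
  have hy0 : Tendsto (fun N => orbitMean U a (s N) y) atTop (𝓝 0) := by
    rw [tendsto_zero_iff_norm_tendsto_zero]
    have e : ∀ N, ‖orbitMean U a (s N) y‖ ^ 2 = ∫ θ, ‖circleMean a (s N) θ‖ ^ 2 ∂μ := fun N => by
      rw [orbitMean, smul_sum, hμU]
      simp [circleMean, Equidist.avg, div_eq_inv_mul, mul_sum]
    have h2 : Tendsto (fun N => ‖orbitMean U a (s N) y‖ ^ 2) atTop (𝓝 0) := by
      simp only [e]
      rw [show (0 : ℝ) = ∫ _θ, (0 : ℝ) ∂μ by simp]
      refine tendsto_integral_of_dominated_convergence (fun _ => 1)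
        (fun N => ((continuous_circleMean a (s N)).norm.pow 2).aestronglyMeasurable)
        (integrable_const _) (fun N => Eventually.of_forall fun θ => ?_)
        (hae.mono fun θ hθ => by simpa using hθ.norm.pow 2)
      rw [Real.norm_eq_abs, abs_of_nonneg (sq_nonneg _)]
      exact pow_le_one₀ (norm_nonneg _) (norm_circleMean_le a (s N) θ)
    simpa [Real.sqrt_sq (norm_nonneg _)] using h2.sqrt
  refine Tendsto.congr' (hs.mono fun N hN => ?_) (by simpa using hy0.add_const m)
  simp only [orbitMean, hyk, sum_sub_distrib, sum_const, ← Nat.cast_smul_eq_nsmul ℂ, smul_sub,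
    smul_smul]
  rw [inv_mul_cancel₀ (Nat.cast_ne_zero.2 hN.card_pos.ne'), one_smul, sub_add_cancel]

end FA.SpectralErgodic
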