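import Fermat.Agent.Equidistribution.Weyl
import Fermat.Agent.PrimePowerEquidist.Main
import Fermat.Agent.Root.SummaryPrimeNumberTheorem
import Mathlib.Algebra.Polynomial.RingDivision
import Mathlib.Data.Int.CardIntervalMod

/-!
# The exponential means of polynomial values and of powers of primes converge

At an irrational point the limit is zero (Weyl, Vinogradov); at a rational one the terms are
periodic, and the classes have densities among the integers and among the primes.
-/

set_option autoImplicit false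

noncomputable section

namespace FA.SpectralErgodic

open Finset Filter Polynomial
open FA.ThreePrimes (eAdd)
open FA.Equidist (avg primeSet)
open scoped Topology Nat.Prime

/-- The mean of a periodic function from the densities of the classes. -/
theorem tendsto_avg_mod {s : ℕ → Finset ℕ} {q : ℕ} (hq : 0 < q) {f : ℕ → ℂ}
    (hper : ∀ n, f (n % q) = f n) {d : ℕ → ℝ}
    (hd : ∀ j < q, Tendsto (fun N => (#((s N).filter fun n => n % q = j) : ℝ) / #(s N)) atTop
      (𝓝 (d j))) :
    Tendsto (fun N => avg (s N) f) atTop (𝓝 (∑ j ∈ range q, (d j : ℂ) * f j)) := by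
  refine (tendsto_finsetSum _ fun j hj =>
    ((Complex.continuous_ofReal.tendsto _).comp (hd j (mem_range.1 hj))).mul_const (f j)).congr
    fun N => ?_
  rw [avg, ← sum_fiberwise_of_maps_to (t := range q) (g := fun n => n % q) (fun n _ =>
    mem_range.2 (Nat.mod_lt n hq)) f, sum_div]
  refine sum_congr rfl fun j _ => ?_
  rw [sum_congr rfl fun n hn => show f n = f j by rw [← hper n, (mem_filter.1 hn).2], sum_const,
    nsmul_eq_mul]
  simp only [Function.comp_apply]
  push_cast
  ring

/-- The density of a class among the integers. -/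
theorem tendsto_card_mod_range {q : ℕ} (hq : 0 < q) {j : ℕ} (hj : j < q) :
    Tendsto (fun N : ℕ => (#((range N).filter fun n => n % q = j) : ℝ) / #(range N)) atTop
      (𝓝 (q : ℝ)⁻¹) := by
  have key : ∀ N : ℕ, |(#((range N).filter fun n => n % q = j) : ℝ) - N / q| ≤ 2 := by
    intro N
    have h : #((range N).filter fun n => n % q = j) =
        N / q + if j % q < N % q then 1 else 0 := by
      rw [← Nat.count_modEq_card N hq j, Nat.count_eq_card_filter_range]
      exact congrArg card (filter_congr fun n _ => by rw [Nat.ModEq, Nat.mod_eq_of_lt hj])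
    obtain ⟨u, hu, hu'⟩ : ∃ u : ℕ, #((range N).filter fun n => n % q = j) = N / q + u ∧ u ≤ 1 :=
      ⟨_, h, by split_ifs <;> omega⟩
    rw [hu, Nat.cast_add]
    have h1 : (((N / q : ℕ)) : ℝ) ≤ (N : ℝ) / q := Nat.cast_div_le
    have h2 : (N : ℝ) / q ≤ ((N / q : ℕ) : ℝ) + 1 := by
      rw [div_le_iff₀ (Nat.cast_pos.2 hq)]
      exact_mod_cast (show N ≤ (N / q + 1) * q by
        rw [mul_comm]; exact (Nat.lt_mul_div_succ N hq).le)
    have h3 : (u : ℝ) ≤ 1 := Nat.cast_le_one.2 hu'
    rw [abs_le]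
    constructor <;> linarith [Nat.cast_nonneg (α := ℝ) u]
  refine tendsto_iff_norm_sub_tendsto_zero.2 (squeeze_zero' (Eventually.of_forall fun N =>
    norm_nonneg _) ?_ (tendsto_const_div_atTop_nhds_zero_nat 2))
  filter_upwards [eventually_gt_atTop 0] with N hN
  rw [card_range, Real.norm_eq_abs, show ∀ c : ℝ, c / N - (q : ℝ)⁻¹ = (c - N / q) / N from
    fun c => by rw [sub_div, div_div_cancel_left' (Nat.cast_ne_zero.2 hN.ne')], abs_div,
    Nat.abs_cast]
  exact div_le_div_of_nonneg_right (key N) (Nat.cast_nonneg N)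

/-- The density of a class among the primes. -/
theorem tendsto_card_mod_primeSet {q : ℕ} (hq : 0 < q) {j : ℕ} (hj : j < q) :
    Tendsto (fun N : ℕ => (#((primeSet N).filter fun n => n % q = j) : ℝ) / #(primeSet N)) atTop
      (𝓝 (if j.Coprime q then (q.totient : ℝ)⁻¹ else 0)) := by
  have : NeZero q := ⟨hq.ne'⟩
  simp only [Equidist.card_primeSet]
  split_ifs with hc
  · have h1 := ((PNT.Summary.prime_number_theorem_progression
      ((ZMod.isUnit_iff_coprime j q).2 hc)).comp (tendsto_natCast_atTop_atTop (R := ℝ)))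
    have h2 := PNT.Summary.prime_number_theorem.comp (tendsto_natCast_atTop_atTop (R := ℝ))
    simp only [Function.comp_def, Nat.floor_natCast] at h1 h2
    have h := h1.div h2 one_ne_zero
    rw [div_one] at h
    refine h.congr' ((eventually_ge_atTop 2).mono fun N hN => ?_)
    have hN0 : (0 : ℝ) < N := Nat.cast_pos.2 (by omega)
    have hl : 0 < Real.log N := Real.log_pos (Nat.one_lt_cast.2 (by omega))
    rw [Pi.div_apply, div_div_div_cancel_right₀ hN0.ne', mul_div_mul_right _ _ hl.ne']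
    congr 2
    refine congrArg card ?_
    ext p
    simp only [primeSet, mem_filter, mem_range, mem_Icc]
    rw [ZMod.natCast_eq_natCast_iff' p j q, Nat.mod_eq_of_lt hj]
    exact ⟨fun h => ⟨⟨by omega, h.2.1⟩, h.2.2⟩,
      fun h => ⟨⟨h.1.2.one_le, by omega⟩, h.1.2, h.2⟩⟩
  · refine squeeze_zero (fun N => by positivity) (fun N => ?_)
      ((tendsto_const_nhds (x := ((q + 1 : ℕ) : ℝ))).div_atTop
        (tendsto_natCast_atTop_atTop.comp Nat.tendsto_primeCounting))
    refine div_le_div_of_nonneg_right (Nat.cast_le.2 ((card_le_card (t := range (q + 1))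
      fun p hp => ?_).trans (card_range _).le)) (Nat.cast_nonneg _)
    simp only [primeSet, mem_filter] at hp
    rw [mem_range]
    by_contra hlt
    refine hc ?_
    rw [← hp.2, Nat.Coprime, ← Nat.gcd_rec]
    refine (Nat.coprime_comm).1 ((hp.1.2.coprime_iff_not_dvd).2 fun hd => ?_)
    have := Nat.le_of_dvd hq hd
    omega

/-- `e (r m)` depends only on `m` modulo the denominator. -/
theorem eAdd_rat_mul_congr (r : ℚ) {m m' : ℤ} (h : (r.den : ℤ) ∣ m - m') :
    eAdd ((m : ℝ) * r) = eAdd ((m' : ℝ) * r) := by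
  obtain ⟨k, hk⟩ := h
  have hd : ((r.den : ℤ) : ℝ) ≠ 0 := by simp [r.den_nz]
  have e : (m : ℝ) * r = (m' : ℝ) * r + ((k * r.num : ℤ) : ℝ) := by
    rw [show m = m' + (r.den : ℤ) * k by omega, Rat.cast_def]
    push_cast
    field_simp
  rw [e, ThreePrimes.eAdd_add_intCast]

/-- Eventually equal bounded sequences have the same means. -/
theorem tendsto_avg_range_congr {f g : ℕ → ℂ} (h : ∀ᶠ n in atTop, f n = g n) {l : ℂ}
    (hg : Tendsto (fun N => avg (range N) g) atTop (𝓝 l)) :
    Tendsto (fun N => avg (range N) f) atTop (𝓝 l) := by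
  obtain ⟨n₀, hn₀⟩ := eventually_atTop.1 h
  have h0 : Tendsto (fun N : ℕ => (∑ n ∈ range n₀, (f n - g n)) / (N : ℂ)) atTop (𝓝 0) :=
    tendsto_const_div_atTop_nhds_zero_nat _
  refine Tendsto.congr' ((eventually_ge_atTop n₀).mono fun N hN => ?_) (by simpa using hg.add h0)
  simp only [avg, card_range, ← add_div]
  congr 1
  rw [← sum_sub_distrib]
  rw [sum_subset (range_mono hN) (f := fun n => f n - g n) fun n _ hn => by
    rw [hn₀ n (not_lt.1 fun hlt => hn (mem_range.2 hlt)), sub_self], sum_sub_distrib]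
  ring

/-- The values `P n` as natural numbers. -/
def polySeq (P : ℤ[X]) (n : ℕ) : ℕ := (P.eval (n : ℤ)).toNat

variable {P : ℤ[X]}

theorem eventually_polySeq (hP : ∀ᶠ n : ℕ in atTop, 0 ≤ P.eval (n : ℤ)) (t : ℝ) :
    ∀ᶠ n : ℕ in atTop, eAdd ((polySeq P n : ℝ) * t) = eAdd (((P.eval (n : ℤ) : ℤ) : ℝ) * t) :=
  hP.mono fun n hn => by
    rw [polySeq]
    congr 2
    rw [← Int.cast_natCast, Int.toNat_of_nonneg hn]

theorem tendsto_avg_poly_irrational (hd : 1 ≤ P.natDegree)
    (hP : ∀ᶠ n : ℕ in atTop, 0 ≤ P.eval (n : ℤ)) {t : ℝ} (ht : Irrational t) :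
    Tendsto (fun N => avg (range N) fun n => eAdd ((polySeq P n : ℝ) * t)) atTop (𝓝 0) := by
  refine tendsto_avg_range_congr (eventually_polySeq hP t) ?_
  refine (Equidist.tendsto_avg_poly _ (Polynomial.C t * P.map (Int.castRingHom ℝ)) rfl
    ⟨P.natDegree, hd, ?_⟩).congr fun N => ?_
  · rw [coeff_C_mul, coeff_map]
    exact ht.mul_intCast (leadingCoeff_ne_zero.2 (ne_zero_of_natDegree_gt hd))
  · simp only [eval_mul, eval_C, eval_map, mul_comm t]
    congr
    funext n
    congr 2
    rw [show ((n : ℝ)) = (Int.castRingHom ℝ) (n : ℤ) by simp, eval₂_at_apply]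
    simp

theorem exists_tendsto_avg_poly_rat (hP : ∀ᶠ n : ℕ in atTop, 0 ≤ P.eval (n : ℤ)) (r : ℚ) :
    ∃ l : ℂ, Tendsto (fun N => avg (range N) fun n => eAdd ((polySeq P n : ℝ) * (r : ℝ))) atTop
      (𝓝 l) := by
  refine ⟨_, tendsto_avg_range_congr (eventually_polySeq hP r) (tendsto_avg_mod r.pos (fun n => ?_)
    fun j hj => tendsto_card_mod_range r.pos hj)⟩
  refine eAdd_rat_mul_congr r (dvd_trans ?_ (sub_dvd_eval_sub _ _ P))
  push_cast
  exact ⟨-((n : ℤ) / r.den), by rw [Int.emod_def]; ring⟩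

theorem exists_tendsto_avg_poly (hP : ∀ᶠ n : ℕ in atTop, 0 ≤ P.eval (n : ℤ)) (t : ℝ) :
    ∃ l : ℂ, Tendsto (fun N => avg (range N) fun n => eAdd ((polySeq P n : ℝ) * t)) atTop
      (𝓝 l) := by
  rcases Nat.eq_zero_or_pos P.natDegree with h0 | hd
  · obtain ⟨c, hc⟩ : ∃ c : ℤ, P = Polynomial.C c := ⟨_, eq_C_of_natDegree_eq_zero h0⟩
    refine ⟨eAdd ((c.toNat : ℝ) * t), tendsto_const_nhds.congr' ((eventually_gt_atTop 0).mono
      fun N hN => ?_)⟩
    simp only [avg, polySeq, hc, eval_C, sum_const, card_range, nsmul_eq_mul]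
    rw [mul_div_cancel_left₀ _ (Nat.cast_ne_zero.2 hN.ne')]
  · rcases em (Irrational t) with ht | ht
    · exact ⟨0, tendsto_avg_poly_irrational hd hP ht⟩
    · obtain ⟨r, rfl⟩ := Equidist.exists_intCast_mul_of_not_irrational ht
      exact exists_tendsto_avg_poly_rat hP r

theorem tendsto_avg_prime_pow_irrational {k : ℕ} (hk : 1 ≤ k) {t : ℝ} (ht : Irrational t) :
    Tendsto (fun N => avg (primeSet N) fun p => eAdd (((p ^ k : ℕ) : ℝ) * t)) atTop (𝓝 0) := by
  simpa [mul_comm] using PrimePowerEquidist.tendsto_avg_pow ht hk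

theorem exists_tendsto_avg_prime_pow {k : ℕ} (hk : 1 ≤ k) (t : ℝ) :
    ∃ l : ℂ, Tendsto (fun N => avg (primeSet N) fun p => eAdd (((p ^ k : ℕ) : ℝ) * t)) atTop
      (𝓝 l) := by
  rcases em (Irrational t) with ht | ht
  · exact ⟨0, tendsto_avg_prime_pow_irrational hk ht⟩
  · obtain ⟨r, rfl⟩ := Equidist.exists_intCast_mul_of_not_irrational ht
    refine ⟨_, tendsto_avg_mod r.pos (fun n => ?_) fun j hj => tendsto_card_mod_primeSet r.pos hj⟩
    rw [← Int.cast_natCast ((n % r.den) ^ k), ← Int.cast_natCast (n ^ k)]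
    exact eAdd_rat_mul_congr r (Nat.modEq_iff_dvd.1 ((Nat.mod_modEq n r.den).pow k).symm)

end FA.SpectralErgodic
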