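import Fermat.Agent.SpectralErgodic.Criterion
import Fermat.Agent.SpectralErgodic.Sequences

/-!
# Furstenberg's polynomial recurrence, with Khintchine's bound

For `P 0 = 0` the averages of `⟪x, U ^ (P (Q n)) x⟫` tend to the integral of a function against
the spectral measure; as `Q = K!` grows it tends to the indicator of the rational points, which
carry at least the square of the component of `x` along a fixed vector.
-/

set_option autoImplicit false

noncomputable section

namespace FA.SpectralErgodic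

open Finset Filter MeasureTheory Polynomial
open FA.ThreePrimes (eAdd)
open scoped Topology ComplexConjugate InnerProductSpace Nat

variable {H : Type*} [NormedAddCommGroup H] [InnerProductSpace ℂ H]

theorem fourier_nat_eq_pow (n : ℕ) (θ : UnitAddCircle) :
    fourier (n : ℤ) θ = fourier 1 θ ^ n := by
  induction n with
  | zero => simp
  | succ n ih => rw [pow_succ, ← ih, ← fourier_add, Nat.cast_succ]

theorem fourier_one_ne_one {θ : UnitAddCircle} (hθ : θ ≠ 0) : fourier 1 θ ≠ 1 := by
  rw [fourier_one]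
  intro h
  refine hθ (AddCircle.injective_toCircle one_ne_zero (Subtype.ext ?_))
  rw [h, AddCircle.toCircle_zero]
  rfl

/-- The mean of `e (n θ)` tends to the indicator of `0`. -/
theorem tendsto_circleMean_id (θ : UnitAddCircle) :
    Tendsto (fun N => circleMean (fun n => n) (range N) θ) atTop
      (𝓝 (if θ = 0 then 1 else 0)) := by
  split_ifs with h
  · refine tendsto_const_nhds.congr' ((eventually_gt_atTop 0).mono fun N hN => ?_)
    subst h
    simp only [circleMean, Equidist.avg, fourier_eval_zero, sum_const, nsmul_eq_mul, mul_one,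
      card_range]
    rw [div_self (Nat.cast_ne_zero.2 hN.ne')]
  · refine Equidist.tendsto_avg_of_periodic (fun n => (Circle.norm_coe _).le) (q := 1)
      (fourier_one_ne_one h) fun n => ?_
    simp only [fourier_nat_eq_pow, pow_succ']

/-- The mass at `0` is at least the square of a component along a fixed unit vector. -/
theorem sq_norm_inner_le_atom (U : H →ₗᵢ[ℂ] H) (x e : H) (he : U e = e) (he1 : ‖e‖ = 1)
    {μ : Measure UnitAddCircle} [IsFiniteMeasure μ]
    (hμ : ∀ {ι : Type} (s : Finset ι) (c : ι → ℂ) (b : ι → ℕ),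
      ‖∑ i ∈ s, c i • U^[b i] x‖ ^ 2 = ∫ θ, ‖∑ i ∈ s, c i * fourier (b i : ℤ) θ‖ ^ 2 ∂μ) :
    ‖⟪e, x⟫_ℂ‖ ^ 2 ≤ μ.real {0} := by
  have hen : ∀ n, ⟪e, U^[n] x⟫_ℂ = ⟪e, x⟫_ℂ := fun n => by
    conv_lhs => rw [← (Function.IsFixedPt.iterate (f := ⇑U) he n).eq, ← LinearIsometry.coe_pow,
      LinearIsometry.inner_map_map]
  have h1 : Tendsto (fun N => ∫ θ, ‖circleMean (fun n => n) (range N) θ‖ ^ 2 ∂μ) atTop
      (𝓝 (∫ θ, ({0} : Set UnitAddCircle).indicator (fun _ => (1 : ℝ)) θ ∂μ)) := by
    refine tendsto_integral_of_dominated_convergence (fun _ => 1)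
      (fun N => ((continuous_circleMean _ (range N)).norm.pow 2).aestronglyMeasurable)
      (integrable_const _) (fun N => Eventually.of_forall fun θ => ?_)
      (Eventually.of_forall fun θ => ?_)
    · rw [Real.norm_eq_abs, abs_of_nonneg (sq_nonneg _)]
      exact pow_le_one₀ (norm_nonneg _) (norm_circleMean_le _ _ θ)
    · have h := (tendsto_circleMean_id θ).norm.pow 2
      by_cases hθ : θ = 0 <;> simp_all
  rw [integral_indicator_const _ (measurableSet_singleton _), smul_eq_mul, mul_one] at h1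
  refine ge_of_tendsto h1 ((eventually_gt_atTop 0).mono fun N hN => ?_)
  have e1 : ∫ θ, ‖circleMean (fun n => n) (range N) θ‖ ^ 2 ∂μ =
      ‖orbitMean U (fun n => n) (range N) x‖ ^ 2 := by
    rw [orbitMean, smul_sum, hμ]
    simp [circleMean, Equidist.avg, div_eq_inv_mul, mul_sum]
  rw [e1]
  refine pow_le_pow_left₀ (norm_nonneg _) (le_trans (le_of_eq ?_)
    ((norm_inner_le_norm (𝕜 := ℂ) e (orbitMean U (fun n => n) (range N) x)).trans_eq
      (by rw [he1, one_mul]))) 2
  rw [orbitMean, inner_smul_right, inner_sum]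
  simp only [hen, sum_const, card_range, nsmul_eq_mul, ← mul_assoc]
  rw [inv_mul_cancel₀ (Nat.cast_ne_zero.2 hN.ne'), one_mul]

/-- The scaled sequence `P (K! n)`. -/
def scaledPoly (P : ℤ[X]) (K : ℕ) : ℤ[X] := P.comp (Polynomial.C ((K ! : ℕ) : ℤ) * X)

/-- **Recurrence at the values of a polynomial.** -/
theorem exists_polynomial_return (U : H →ₗᵢ[ℂ] H) (x e : H) (he : U e = e) (he1 : ‖e‖ = 1)
    {P : ℤ[X]} (hd : 1 ≤ P.natDegree) (hP0 : P.eval 0 = 0)
    (hP : ∀ᶠ n : ℕ in atTop, 0 ≤ P.eval (n : ℤ)) {ε : ℝ} (hε : 0 < ε) (M : ℕ) :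
    ∃ n : ℕ, M < n ∧ ‖⟪e, x⟫_ℂ‖ ^ 2 - ε ≤ (⟪x, U^[polySeq P n] x⟫_ℂ).re := by
  obtain ⟨μ, hμ, hfou, hμU⟩ := exists_spectral_measure U x
  have hdK : ∀ K, 1 ≤ (scaledPoly P K).natDegree := fun K => by
    rw [scaledPoly, natDegree_comp, natDegree_C_mul_X _ (Int.natCast_ne_zero.2 K.factorial_ne_zero),
      mul_one]
    exact hd
  have hevK : ∀ (K : ℕ) (n : ℕ), (scaledPoly P K).eval (n : ℤ) = P.eval ((K ! * n : ℕ) : ℤ) :=
    fun K n => by simp [scaledPoly]
  have htop : ∀ K : ℕ, Tendsto (fun n => K ! * n) atTop atTop := fun K =>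
    tendsto_atTop_mono (fun n => Nat.le_mul_of_pos_left n K.factorial_pos) tendsto_id
  have hPK : ∀ K, ∀ᶠ n : ℕ in atTop, 0 ≤ (scaledPoly P K).eval (n : ℤ) := fun K => by
    simpa only [hevK] using (htop K).eventually hP
  have hlim : ∀ K (θ : UnitAddCircle), ∃ l : ℂ, Tendsto
      (fun N => circleMean (polySeq (scaledPoly P K)) (range N) θ) atTop (𝓝 l) := by
    intro K θ
    induction θ using QuotientAddGroup.induction_on with
    | H t => simpa only [circleMean_coe] using exists_tendsto_avg_poly (hPK K) t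
  choose L hL using hlim
  have hLm : ∀ K, AEStronglyMeasurable (L K) μ := fun K =>
    aestronglyMeasurable_of_tendsto_ae atTop
      (fun N => (continuous_circleMean _ (range N)).aestronglyMeasurable)
      (Eventually.of_forall (hL K))
  have hLb : ∀ K θ, ‖L K θ‖ ≤ 1 := fun K θ => le_of_tendsto (hL K θ).norm
    (Eventually.of_forall fun N => norm_circleMean_le _ _ θ)
  obtain ⟨S, hS⟩ : ∃ S : Set UnitAddCircle,
      S = Set.range fun r : ℚ => ((r : ℝ) : UnitAddCircle) := ⟨_, rfl⟩
  have hSm : MeasurableSet S := by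
    rw [hS]
    exact (Set.countable_range _).measurableSet
  have hLlim : ∀ θ, Tendsto (fun K => (L K θ).re) atTop (𝓝 (S.indicator (fun _ => (1 : ℝ)) θ)) := by
    intro θ
    induction θ using QuotientAddGroup.induction_on with
    | H t =>
      by_cases ht : (t : UnitAddCircle) ∈ S
      · rw [Set.indicator_of_mem ht]
        rw [hS] at ht
        obtain ⟨r, hr⟩ := ht
        refine tendsto_const_nhds.congr' ((eventually_ge_atTop r.den).mono fun K hK => ?_)
        simp only
        rw [show L K (t : UnitAddCircle) = 1 from tendsto_nhds_unique (hL K _) ?_, Complex.one_re]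
        rw [← hr]
        simp only [circleMean_coe]
        refine tendsto_avg_range_congr (eventually_polySeq (hPK K) r) ?_
        refine tendsto_const_nhds.congr' ((eventually_gt_atTop 0).mono fun N hN => ?_)
        have hone : ∀ n : ℕ, eAdd ((((scaledPoly P K).eval (n : ℤ) : ℤ) : ℝ) * r) = 1 := fun n => by
          rw [eAdd_rat_mul_congr r (m' := 0), Int.cast_zero, zero_mul, ThreePrimes.eAdd_zero]
          rw [hevK, sub_zero]
          refine dvd_trans ?_ (show ((K ! * n : ℕ) : ℤ) ∣ P.eval ((K ! * n : ℕ) : ℤ) by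
            simpa [hP0] using sub_dvd_eval_sub ((K ! * n : ℕ) : ℤ) 0 P)
          exact Int.natCast_dvd_natCast.2 ((Nat.dvd_factorial r.pos hK).mul_right n)
        simp only [Equidist.avg, hone, sum_const, card_range, nsmul_eq_mul, mul_one]
        rw [div_self (Nat.cast_ne_zero.2 hN.ne')]
      · rw [Set.indicator_of_notMem ht]
        have hirr : Irrational t := fun ⟨r, hr⟩ => ht (hS ▸ ⟨r, by rw [← hr]⟩)
        refine tendsto_const_nhds.congr fun K => ?_
        rw [show L K (t : UnitAddCircle) = 0 from tendsto_nhds_unique (hL K _) ?_, Complex.zero_re]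
        simp only [circleMean_coe]
        exact tendsto_avg_poly_irrational (hdK K) (hPK K) hirr
  have hint : Tendsto (fun K => ∫ θ, (L K θ).re ∂μ) atTop (𝓝 (μ.real S)) := by
    rw [show μ.real S = ∫ θ, S.indicator (fun _ => (1 : ℝ)) θ ∂μ by
      rw [integral_indicator_const _ hSm, smul_eq_mul, mul_one]]
    refine tendsto_integral_of_dominated_convergence (fun _ => 1)
      (fun K => Complex.continuous_re.comp_aestronglyMeasurable (hLm K)) (integrable_const _)
      (fun K => Eventually.of_forall fun θ => ?_) (Eventually.of_forall hLlim)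
    exact (Complex.abs_re_le_norm _).trans (hLb K θ)
  have hS0 : ‖⟪e, x⟫_ℂ‖ ^ 2 ≤ μ.real S := by
    refine (sq_norm_inner_le_atom U x e he he1 hμU).trans (measureReal_mono ?_ (measure_ne_top μ S))
    rintro θ rfl
    exact hS ▸ ⟨0, by simp⟩
  obtain ⟨K, hK⟩ := (hint.eventually_const_lt
    (show ‖⟪e, x⟫_ℂ‖ ^ 2 - ε < μ.real S by linarith)).exists
  have hcorr : Tendsto (fun N : ℕ => (∑ n ∈ range N,
      (⟪x, U^[polySeq (scaledPoly P K) n] x⟫_ℂ).re) / N) atTop (𝓝 (∫ θ, (L K θ).re ∂μ)) := by
    refine (tendsto_integral_of_dominated_convergence (fun _ => 1)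
      (fun N => (Complex.continuous_re.comp (continuous_circleMean (polySeq (scaledPoly P K))
        (range N))).aestronglyMeasurable) (integrable_const _)
      (fun N => Eventually.of_forall fun θ => (Complex.abs_re_le_norm _).trans
        (norm_circleMean_le _ _ θ))
      (Eventually.of_forall fun θ => (Complex.continuous_re.tendsto _).comp (hL K θ))).congr
      fun N => ?_
    have hi : ∀ n, Integrable (fun θ : UnitAddCircle => fourier (n : ℤ) θ) μ := fun n =>
      Continuous.integrable_of_hasCompactSupport (by fun_prop) (HasCompactSupport.of_compactSpace _)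
    rw [show ∫ θ, (Complex.re ∘ circleMean (polySeq (scaledPoly P K)) (range N)) θ ∂μ =
        (∫ θ, circleMean (polySeq (scaledPoly P K)) (range N) θ ∂μ).re from
      integral_re (Continuous.integrable_of_hasCompactSupport (continuous_circleMean _ _)
        (HasCompactSupport.of_compactSpace _))]
    simp only [circleMean, Equidist.avg, card_range]
    rw [integral_div, integral_finsetSum _ fun n _ => hi _, Complex.div_natCast_re, Complex.re_sum]
    refine congrArg (· / _) (sum_congr rfl fun n _ => ?_)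
    rw [hfou]
    rfl
  by_contra hcon
  push Not at hcon
  obtain ⟨n₀, hn₀⟩ := eventually_atTop.1 ((htop K).eventually (eventually_gt_atTop M))
  obtain ⟨c, hc⟩ : ∃ c, c = ‖⟪e, x⟫_ℂ‖ ^ 2 - ε := ⟨_, rfl⟩
  have hseq : ∀ n, polySeq (scaledPoly P K) n = polySeq P (K ! * n) := fun n => by
    rw [polySeq, polySeq, hevK]
  have hb : ∀ n, (⟪x, U^[polySeq (scaledPoly P K) n] x⟫_ℂ).re ≤
      c + if n < n₀ then ‖x‖ ^ 2 + |c| else 0 := fun n => by
    split_ifs with hn
    · refine (Complex.re_le_norm _).trans ((norm_inner_le_norm (𝕜 := ℂ) _ _).trans ?_)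
      rw [PrimeMeanErgodic.norm_iterate, ← sq]
      linarith [neg_abs_le c]
    · rw [add_zero, hseq, hc]
      exact (hcon _ (hn₀ n (not_lt.1 hn))).le
  refine absurd hK (not_lt.2 (le_of_tendsto_of_tendsto hcorr
    (show Tendsto (fun N : ℕ => c + (n₀ : ℝ) * (‖x‖ ^ 2 + |c|) / N) atTop
      (𝓝 (‖⟪e, x⟫_ℂ‖ ^ 2 - ε)) by
      rw [← hc]
      simpa using (tendsto_const_div_atTop_nhds_zero_nat
        ((n₀ : ℝ) * (‖x‖ ^ 2 + |c|))).const_add c)
    ((eventually_gt_atTop 0).mono fun N hN => ?_)))
  have hN0 : (0 : ℝ) < N := Nat.cast_pos.2 hN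
  rw [div_le_iff₀ hN0, add_mul, div_mul_cancel₀ _ hN0.ne']
  refine (sum_le_sum fun n _ => hb n).trans ?_
  rw [sum_add_distrib, sum_const, card_range, nsmul_eq_mul, mul_comm c, ← sum_filter, sum_const,
    nsmul_eq_mul]
  refine add_le_add le_rfl (mul_le_mul_of_nonneg_right (Nat.cast_le.2 ?_) (by positivity))
  refine (card_le_card (t := range n₀) fun n hn => ?_).trans (card_range _).le
  exact mem_range.2 (mem_filter.1 hn).2

end FA.SpectralErgodic
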