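import Fermat.Agent.PrimeMeanErgodic.Main
import Fermat.Agent.SpectralErgodic.Recurrence

/-!
# Polynomial ergodic theorems on `L²`

The averages along polynomial values and along powers of primes for measure preserving maps, their
limit for totally ergodic maps, and the returns to a set.
-/

set_option autoImplicit false

noncomputable section

namespace FA.SpectralErgodic

open Finset Filter MeasureTheory Polynomial
open FA.ThreePrimes (eAdd)
open FA.PrimeMeanErgodic (koopman coeFn_average coeFn_koopman_iterate)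
open scoped Topology Nat.Prime InnerProductSpace

variable {Ω : Type*} [MeasurableSpace Ω] {μ : Measure Ω} {T : Ω → Ω}

theorem tendsto_eLpNorm_orbitMean (hT : MeasurePreserving T μ μ) {g : Ω → ℂ} (hg : MemLp g 2 μ)
    (a : ℕ → ℕ) (s : ℕ → Finset ℕ) {l : Lp ℂ 2 μ} {l' : Ω → ℂ}
    (hl' : (l : Ω → ℂ) =ᵐ[μ] l')
    (h : Tendsto (fun N => orbitMean (koopman hT) a (s N) (hg.toLp g)) atTop (𝓝 l)) :
    Tendsto (fun N => eLpNorm (fun ω => (#(s N) : ℂ)⁻¹ * (∑ n ∈ s N, g (T^[a n] ω)) - l' ω) 2 μ)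
      atTop (𝓝 0) := by
  refine ((Lp.tendsto_Lp_iff_tendsto_eLpNorm' _ _).1 h).congr fun N => eLpNorm_congr_ae ?_
  filter_upwards [coeFn_average hT hg (s N) a ((#(s N) : ℂ)⁻¹), hl'] with ω h1 h2
  rw [Pi.sub_apply]
  exact congrArg₂ (· - ·) h1 h2

/-- The criterion on `L²`. -/
theorem exists_l2_mean (hT : MeasurePreserving T μ μ) {g : Ω → ℂ} (hg : MemLp g 2 μ)
    (a : ℕ → ℕ) (s : ℕ → Finset ℕ) (h : ∀ t : ℝ, ∃ l : ℂ,
      Tendsto (fun N => Equidist.avg (s N) fun n => eAdd ((a n : ℝ) * t)) atTop (𝓝 l)) :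
    ∃ l : Ω → ℂ, MemLp l 2 μ ∧ Tendsto (fun N => eLpNorm (fun ω =>
      (#(s N) : ℂ)⁻¹ * (∑ n ∈ s N, g (T^[a n] ω)) - l ω) 2 μ) atTop (𝓝 0) := by
  obtain ⟨l, hl⟩ := exists_tendsto_orbitMean a s h (koopman hT) (hg.toLp g)
  exact ⟨l, Lp.memLp l, tendsto_eLpNorm_orbitMean hT hg a s (ae_eq_refl _) hl⟩

variable [IsProbabilityMeasure μ]

/-- The constant `1` in `L²`. -/
def oneLp (μ : Measure Ω) [IsProbabilityMeasure μ] : Lp ℂ 2 μ :=
  indicatorConstLp 2 MeasurableSet.univ (measure_ne_top μ _) (1 : ℂ)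

theorem coeFn_oneLp : (oneLp μ : Ω → ℂ) =ᵐ[μ] fun _ => 1 :=
  indicatorConstLp_coeFn.trans (by simp)

theorem koopman_oneLp (hT : MeasurePreserving T μ μ) : koopman hT (oneLp μ) = oneLp μ :=
  Lp.ext (((coeFn_koopman_iterate hT 1 (oneLp μ)).trans
    ((hT.iterate 1).quasiMeasurePreserving.ae_eq coeFn_oneLp)).trans coeFn_oneLp.symm)

theorem inner_oneLp (f : Lp ℂ 2 μ) : ⟪oneLp μ, f⟫_ℂ = ∫ ω, f ω ∂μ := by
  rw [oneLp, L2.inner_indicatorConstLp_one MeasurableSet.univ, setIntegral_univ]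

theorem norm_oneLp : ‖oneLp μ‖ = 1 := by
  rw [← sq_eq_sq₀ (norm_nonneg _) zero_le_one, one_pow, ← Complex.ofReal_inj, Complex.ofReal_pow,
    inner_self_complex, inner_oneLp, integral_congr_ae coeFn_oneLp]
  simp

/-- The limit for totally ergodic maps is the integral. -/
theorem tendsto_l2_mean_integral (hT : MeasurePreserving T μ μ)
    (herg : ∀ q : ℕ, 0 < q → Ergodic T^[q] μ) {g : Ω → ℂ} (hg : MemLp g 2 μ) (a : ℕ → ℕ)
    (s : ℕ → Finset ℕ) (hs : ∀ᶠ N in atTop, (s N).Nonempty)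
    (h0 : ∀ t : ℝ, Irrational t →
      Tendsto (fun N => Equidist.avg (s N) fun n => eAdd ((a n : ℝ) * t)) atTop (𝓝 0)) :
    Tendsto (fun N => eLpNorm (fun ω =>
      (#(s N) : ℂ)⁻¹ * (∑ n ∈ s N, g (T^[a n] ω)) - ∫ x, g x ∂μ) 2 μ) atTop (𝓝 0) := by
  obtain ⟨U, hU⟩ : ∃ U, U = koopman hT := ⟨_, rfl⟩
  have hconst : ∀ q : ℕ, 0 < q → ∀ m : Lp ℂ 2 μ, U^[q] m = m → ∃ c : ℂ, m = c • oneLp μ := by
    intro q hq m hm
    have h1 := coeFn_koopman_iterate hT q m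
    rw [← hU, hm] at h1
    obtain ⟨c, hc⟩ := (herg q hq).ae_eq_const_of_ae_eq_comp_ae (Lp.aestronglyMeasurable m) h1.symm
    refine ⟨c, Lp.ext (hc.trans ?_)⟩
    filter_upwards [Lp.coeFn_smul c (oneLp μ), coeFn_oneLp] with ω e1 e2
    rw [e1, Pi.smul_apply, e2, smul_eq_mul, mul_one, Function.const_apply]
  have hfix : ∀ q : ℕ, 0 < q → ∀ m : Lp ℂ 2 μ, U^[q] m = m → U m = m := by
    intro q hq m hm
    obtain ⟨c, rfl⟩ := hconst q hq m hm
    rw [map_smul, hU, koopman_oneLp]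
  obtain ⟨m, -, hm⟩ := PrimeMeanErgodic.exists_mean U (hg.toLp g)
  have h1 := PrimeMeanErgodic.tendsto_average_of_fixed U hfix (hg.toLp g) hm
  rw [hU] at h1
  have h2 := tendsto_nhds_unique h1
    (PrimeMeanErgodic.tendsto_average_ergodic hT herg (hg.toLp g))
  refine tendsto_eLpNorm_orbitMean hT hg a s (l := m) (l' := fun _ => ∫ x, g x ∂μ) ?_
    (hU ▸ tendsto_orbitMean_of_fixed a s hs h0 U hfix (hg.toLp g) hm)
  rw [h2, integral_congr_ae hg.coeFn_toLp]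
  refine (Lp.coeFn_smul _ _).trans ?_
  filter_upwards [coeFn_oneLp (μ := μ)] with ω h
  rw [Pi.smul_apply]
  exact (congrArg _ h).trans (mul_one _)

/-- **Khintchine's recurrence at the values of a polynomial.** -/
theorem exists_set_return (hT : MeasurePreserving T μ μ) {A : Set Ω} (hA : MeasurableSet A)
    {P : ℤ[X]} (hd : 1 ≤ P.natDegree) (hP0 : P.eval 0 = 0)
    (hP : ∀ᶠ n : ℕ in atTop, 0 ≤ P.eval (n : ℤ)) {ε : ℝ} (hε : 0 < ε) (M : ℕ) :
    ∃ n : ℕ, M < n ∧ μ.real A ^ 2 - ε ≤ μ.real (A ∩ T^[polySeq P n] ⁻¹' A) := by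
  obtain ⟨u, hu⟩ : ∃ u : Lp ℂ 2 μ,
      u = indicatorConstLp 2 hA (measure_ne_top μ _) (1 : ℂ) := ⟨_, rfl⟩
  obtain ⟨n, hn, h⟩ := exists_polynomial_return (koopman hT) u (oneLp μ) (koopman_oneLp hT)
    norm_oneLp hd hP0 hP hε M
  refine ⟨n, hn, ?_⟩
  have e1 : ⟪oneLp μ, u⟫_ℂ = (μ.real A : ℂ) := by
    rw [inner_oneLp, hu, integral_congr_ae indicatorConstLp_coeFn, integral_indicator hA]
    simp
  have e2 : ⟪u, (koopman hT)^[polySeq P n] u⟫_ℂ =
      (μ.real (A ∩ T^[polySeq P n] ⁻¹' A) : ℂ) := by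
    rw [hu, show (⇑(koopman hT))^[polySeq P n]
        (indicatorConstLp 2 hA (measure_ne_top μ _) (1 : ℂ)) =
      indicatorConstLp 2 ((hT.iterate (polySeq P n)).measurable hA) (measure_ne_top μ _) (1 : ℂ)
      from
        (congrFun (Lp.compMeasurePreserving_iterate hT (polySeq P n)) _).trans
          (Lp.indicatorConstLp_compMeasurePreserving hA (measure_ne_top μ _) (1 : ℂ)
            (hT.iterate (polySeq P n)))]
    rw [L2.inner_indicatorConstLp_one hA, setIntegral_congr_ae hA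
      (indicatorConstLp_coeFn.mono fun ω h _ => h), setIntegral_indicator
      ((hT.iterate (polySeq P n)).measurable hA)]
    simp
  rwa [e1, e2, Complex.norm_real, Real.norm_eq_abs, sq_abs, Complex.ofReal_re] at h

end FA.SpectralErgodic
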